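import Mathlib

/-!
# S41 / [PD-INT] (helper81): intrinsic cup pairing = model pairing, abstract transfer computation

Abstract setting: `G` a group, `H ≤ G` of finite index, `X = G ⧸ H` with its left action,
`rep = Quotient.out`, `tr g x = (rep x)⁻¹ * (g * rep (g⁻¹ • x)) ∈ H` (the conventions of the landed
`S21/ParabolicDim87.coc`).  For additive `φ ψ : H → k` and `κ : H → k` with
`κ a + κ b - κ (a * b) = φ a * ψ b` (i.e. `dκ = φ ∪ ψ`):

* `transfer_cobdry` (T1): `Kt κ g := ∑ x, κ (tr g x)` satisfies `dKt = ⟪Zφ g, g • Zψ h⟫` exactly;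
* `Kp_cobdry` (T3): after changing the Shapiro cocycles by coboundaries `d a`, `d b`, the cochain
  `Kp = Kt - ⟪a, Zψ ·⟫ + ⟪Z1 ·, · • b⟫` satisfies `dKp = ⟪Z1 g, g • Z2 h⟫`;
* `kappa_tr_pow` (T2): the value of `κ` on `tr (u ^ n) x` (a cusp generator when `u ^ n • x = x`);
* `sum_cusps_eq` : if `Z1 (s * t) = 0`, then `∑_cusps κ (γ_c)` equals the explicit expression
  `c'(s,s)/2 + (c'(t,t) + c'(t,t*t))/3 - c'(s,t)` in the values of the cocycles at `s`, `t`.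
-/

set_option autoImplicit false
set_option linter.unusedSectionVars false

open scoped BigOperators

namespace Fermat.Agent.S41.PDInt81

variable {G : Type*} [Group G] (H : Subgroup G)

/-- coset representatives -/
noncomputable def rep (x : G ⧸ H) : G := Quotient.out x

lemma mk_rep (x : G ⧸ H) : (QuotientGroup.mk (rep H x) : G ⧸ H) = x :=
  QuotientGroup.out_eq' x

lemma tr_mem (g : G) (x : G ⧸ H) : (rep H x)⁻¹ * (g * rep H (g⁻¹ • x)) ∈ H := by
  rw [← QuotientGroup.eq, mk_rep]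
  have : (QuotientGroup.mk (g * rep H (g⁻¹ • x)) : G ⧸ H) =
      g • (QuotientGroup.mk (rep H (g⁻¹ • x)) : G ⧸ H) := rfl
  rw [this, mk_rep, smul_inv_smul]

/-- the `H`-valued "transfer" element attached to `g` and the coset `x` -/
noncomputable def tr (g : G) (x : G ⧸ H) : H := ⟨(rep H x)⁻¹ * (g * rep H (g⁻¹ • x)), tr_mem H g x⟩

lemma tr_mul (g h : G) (x : G ⧸ H) : tr H (g * h) x = tr H g x * tr H h (g⁻¹ • x) := by
  apply Subtype.ext
  simp only [tr, Subgroup.coe_mul, mul_inv_rev, mul_smul]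
  group

lemma tr_one (x : G ⧸ H) : tr H 1 x = 1 := by
  apply Subtype.ext
  simp [tr]

variable {k : Type*} [Field k]

/-- left translation on functions -/
def Lact (g : G) (v : G ⧸ H → k) : G ⧸ H → k := fun x => v (g⁻¹ • x)

@[simp] lemma Lact_apply (g : G) (v : G ⧸ H → k) (x : G ⧸ H) : Lact H g v x = v (g⁻¹ • x) := rfl

lemma Lact_mul (g h : G) (v : G ⧸ H → k) : Lact H (g * h) v = Lact H g (Lact H h v) := by
  funext x
  simp [Lact, mul_smul]

lemma Lact_add (g : G) (v w : G ⧸ H → k) : Lact H g (v + w) = Lact H g v + Lact H g w := rfl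

lemma Lact_sub (g : G) (v w : G ⧸ H → k) : Lact H g (v - w) = Lact H g v - Lact H g w := rfl

/-- Shapiro cocycle of a function on `H` -/
noncomputable def Zc (φ : H → k) (g : G) : G ⧸ H → k := fun x => φ (tr H g x)

lemma Zc_mul {φ : H → k} (hφ : ∀ a b, φ (a * b) = φ a + φ b) (g h : G) :
    Zc H φ (g * h) = Zc H φ g + Lact H g (Zc H φ h) := by
  funext x
  simp only [Zc, Pi.add_apply, Lact_apply, tr_mul, hφ]

variable [Fintype (G ⧸ H)]

/-- the permutation pairing -/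
def ip (v w : G ⧸ H → k) : k := ∑ x, v x * w x

lemma ip_add_left (v v' w : G ⧸ H → k) : ip H (v + v') w = ip H v w + ip H v' w := by
  simp [ip, add_mul, Finset.sum_add_distrib]

lemma ip_sub_left (v v' w : G ⧸ H → k) : ip H (v - v') w = ip H v w - ip H v' w := by
  simp [ip, sub_mul, Finset.sum_sub_distrib]

lemma ip_add_right (v w w' : G ⧸ H → k) : ip H v (w + w') = ip H v w + ip H v w' := by
  simp [ip, mul_add, Finset.sum_add_distrib]

lemma ip_sub_right (v w w' : G ⧸ H → k) : ip H v (w - w') = ip H v w - ip H v w' := by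
  simp [ip, mul_sub, Finset.sum_sub_distrib]

lemma ip_zero_left (w : G ⧸ H → k) : ip H 0 w = 0 := by simp [ip]

lemma sum_smul_inv (g : G) (F : G ⧸ H → k) : ∑ x, F (g⁻¹ • x) = ∑ x, F x :=
  Fintype.sum_equiv (MulAction.toPerm g⁻¹) _ _ (fun _ => rfl)

lemma ip_Lact (g : G) (v w : G ⧸ H → k) : ip H (Lact H g v) (Lact H g w) = ip H v w := by
  simp only [ip, Lact_apply]
  exact sum_smul_inv H g (fun x => v x * w x)

/-- cochain-level transfer of `κ` -/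
noncomputable def Kt (κ : H → k) (g : G) : k := ∑ x, κ (tr H g x)

/-- **(T1)** the transfer of `κ` bounds the cup product of the Shapiro cocycles, exactly. -/
theorem transfer_cobdry {φ ψ κ : H → k}
    (hκ : ∀ a b, κ a + κ b - κ (a * b) = φ a * ψ b) (g h : G) :
    Kt H κ g + Kt H κ h - Kt H κ (g * h) = ip H (Zc H φ g) (Lact H g (Zc H ψ h)) := by
  have h1 : Kt H κ h = ∑ x, κ (tr H h (g⁻¹ • x)) :=
    (sum_smul_inv H g (fun x => κ (tr H h x))).symm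
  rw [h1]
  simp only [Kt, ip, Zc, Lact_apply, ← Finset.sum_add_distrib, ← Finset.sum_sub_distrib]
  refine Finset.sum_congr rfl (fun x _ => ?_)
  rw [tr_mul, hκ]

section cocycles

variable {φ ψ κ : H → k} (a b : G ⧸ H → k)

/-- the normalised first cocycle `Zφ - d a` -/
noncomputable def Z1 (φ : H → k) (a : G ⧸ H → k) (g : G) : G ⧸ H → k :=
  Zc H φ g - (Lact H g a - a)

lemma Z1_mul (hφ : ∀ a b, φ (a * b) = φ a + φ b) (g h : G) :
    Z1 H φ a (g * h) = Z1 H φ a g + Lact H g (Z1 H φ a h) := by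
  simp only [Z1, Zc_mul H hφ, Lact_mul, Lact_sub]
  abel

/-- the corrected transfer cochain -/
noncomputable def Kp (φ ψ κ : H → k) (a b : G ⧸ H → k) (g : G) : k :=
  Kt H κ g - ip H a (Zc H ψ g) + ip H (Z1 H φ a g) (Lact H g b)

/-- the cup product of the two normalised cocycles -/
noncomputable def cp (φ ψ : H → k) (a b : G ⧸ H → k) (g h : G) : k :=
  ip H (Z1 H φ a g) (Lact H g (Z1 H ψ b h))

/-- **(T3)** `d Kp = Z1 ∪ Z2`. -/
theorem Kp_cobdry (hφ : ∀ a b, φ (a * b) = φ a + φ b) (hψ : ∀ a b, ψ (a * b) = ψ a + ψ b)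
    (hκ : ∀ a b, κ a + κ b - κ (a * b) = φ a * ψ b) (g h : G) :
    Kp H φ ψ κ a b g + Kp H φ ψ κ a b h - Kp H φ ψ κ a b (g * h) = cp H φ ψ a b g h := by
  have hT := transfer_cobdry H hκ g h
  have e1 : ip H (Z1 H φ a h) (Lact H h b)
      = ip H (Lact H g (Z1 H φ a h)) (Lact H g (Lact H h b)) := (ip_Lact H g _ _).symm
  simp only [Kp, cp]
  rw [Z1_mul H a hφ g h, Zc_mul H hψ g h, Lact_mul, e1]
  simp only [Z1, Lact_sub, ip_add_left, ip_sub_left, ip_add_right, ip_sub_right, ip_Lact] at *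
  linear_combination hT

end cocycles

section orbit

variable {φ ψ κ : H → k}

lemma map_one_eq_zero {φ : H → k} (hφ : ∀ a b, φ (a * b) = φ a + φ b) : φ 1 = 0 := by
  have h := hφ 1 1
  rw [mul_one] at h
  exact left_eq_add.mp h

lemma kappa_one (hφ : ∀ a b, φ (a * b) = φ a + φ b)
    (hκ : ∀ a b, κ a + κ b - κ (a * b) = φ a * ψ b) : κ 1 = 0 := by
  have h := hκ 1 1
  rw [mul_one, map_one_eq_zero H hφ, zero_mul] at h
  linear_combination h

/-- **(T2)**, general form: the value of `κ` on the product `tr (u ^ n) x = ∏ tr u (u⁻ʲ x)`. -/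
theorem kappa_tr_pow (hφ : ∀ a b, φ (a * b) = φ a + φ b)
    (hκ : ∀ a b, κ a + κ b - κ (a * b) = φ a * ψ b) (u : G) (x : G ⧸ H) (n : ℕ) :
    κ (tr H (u ^ n) x) = ∑ j ∈ Finset.range n, κ (tr H u ((u ^ j)⁻¹ • x))
      - ∑ j ∈ Finset.range n, φ (tr H (u ^ j) x) * ψ (tr H u ((u ^ j)⁻¹ • x)) := by
  induction n with
  | zero => simp [tr_one, kappa_one H hφ hκ]
  | succ n ih =>
    rw [pow_succ, tr_mul, Finset.sum_range_succ, Finset.sum_range_succ]
    have h := hκ (tr H (u ^ n) x) (tr H u ((u ^ n)⁻¹ • x))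
    linear_combination ih - h

lemma hom_tr_pow {ψ : H → k} (hψ : ∀ a b, ψ (a * b) = ψ a + ψ b) (u : G) (x : G ⧸ H) (n : ℕ) :
    ψ (tr H (u ^ n) x) = ∑ j ∈ Finset.range n, ψ (tr H u ((u ^ j)⁻¹ • x)) := by
  induction n with
  | zero => simp [tr_one, map_one_eq_zero H hψ]
  | succ n ih => rw [pow_succ, tr_mul, Finset.sum_range_succ, hψ, ih]

lemma Z1_one (hφ : ∀ a b, φ (a * b) = φ a + φ b) (a : G ⧸ H → k) : Z1 H φ a 1 = 0 := by
  funext x
  simp [Z1, Zc, tr_one, map_one_eq_zero H hφ, Lact]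

lemma Z1_pow_eq_zero (hφ : ∀ a b, φ (a * b) = φ a + φ b) (a : G ⧸ H → k) (u : G)
    (hu : Z1 H φ a u = 0) (n : ℕ) : Z1 H φ a (u ^ n) = 0 := by
  induction n with
  | zero => rw [pow_zero, Z1_one H hφ]
  | succ n ih =>
    rw [pow_succ, Z1_mul H a hφ, ih, hu]
    funext x
    simp [Lact]

lemma phi_tr_pow_of_Z1 (hφ : ∀ a b, φ (a * b) = φ a + φ b) (a : G ⧸ H → k) (u : G)
    (hu : Z1 H φ a u = 0) (n : ℕ) (x : G ⧸ H) :
    φ (tr H (u ^ n) x) = a ((u ^ n)⁻¹ • x) - a x := by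
  have h := congrFun (Z1_pow_eq_zero H hφ a u hu n) x
  simp only [Z1, Zc, Pi.sub_apply, Lact_apply, Pi.zero_apply] at h
  linear_combination h

/-- **(T2)** for a parabolic orbit: `κ (γ_c)` as a sum over the orbit. -/
theorem kappa_cusp (hφ : ∀ a b, φ (a * b) = φ a + φ b) (hψ : ∀ a b, ψ (a * b) = ψ a + ψ b)
    (hκ : ∀ a b, κ a + κ b - κ (a * b) = φ a * ψ b) (a : G ⧸ H → k) (u : G)
    (hu : Z1 H φ a u = 0) (x : G ⧸ H) (n : ℕ) (hpar : ψ (tr H (u ^ n) x) = 0) :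
    κ (tr H (u ^ n) x) = ∑ j ∈ Finset.range n,
      (κ (tr H u ((u ^ j)⁻¹ • x)) - a ((u ^ j)⁻¹ • x) * ψ (tr H u ((u ^ j)⁻¹ • x))) := by
  rw [kappa_tr_pow H hφ hκ, Finset.sum_sub_distrib]
  congr 1
  have h2 : ∑ j ∈ Finset.range n, φ (tr H (u ^ j) x) * ψ (tr H u ((u ^ j)⁻¹ • x))
      = ∑ j ∈ Finset.range n, a ((u ^ j)⁻¹ • x) * ψ (tr H u ((u ^ j)⁻¹ • x))
        - a x * ∑ j ∈ Finset.range n, ψ (tr H u ((u ^ j)⁻¹ • x)) := by
    rw [Finset.mul_sum, ← Finset.sum_sub_distrib]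
    refine Finset.sum_congr rfl (fun j _ => ?_)
    rw [phi_tr_pow_of_Z1 H hφ a u hu]
    ring
  rw [h2, ← hom_tr_pow H hψ, hpar, mul_zero, sub_zero]

end orbit

section final

variable {φ ψ κ : H → k} (a b : G ⧸ H → k)

lemma Kp_of_triv (z : G) (hz : ∀ x : G ⧸ H, z⁻¹ • x = x) (hκz : ∀ x, κ (tr H z x) = 0)
    (hφz : ∀ x, φ (tr H z x) = 0) (hψz : ∀ x, ψ (tr H z x) = 0) :
    Kp H φ ψ κ a b z = 0 := by
  have h1 : Kt H κ z = 0 := by simp [Kt, hκz]
  have h2 : Zc H ψ z = 0 := by funext x; simp [Zc, hψz]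
  have h3 : Z1 H φ a z = 0 := by funext x; simp [Z1, Zc, hφz, Lact, hz]
  simp [Kp, h1, h2, h3, ip]

/-- **[PD-INT]** the intrinsic sum over cusps equals the model expression in the values of the
normalised cocycles at `s` and `t`. -/
theorem sum_cusps_eq [CharZero k]
    (hφ : ∀ a b, φ (a * b) = φ a + φ b) (hψ : ∀ a b, ψ (a * b) = ψ a + ψ b)
    (hκ : ∀ a b, κ a + κ b - κ (a * b) = φ a * ψ b)
    (s t : G) (hu : Z1 H φ a (s * t) = 0)
    (hs : ∀ x : G ⧸ H, (s * s)⁻¹ • x = x) (hκs : ∀ x, κ (tr H (s * s) x) = 0)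
    (hφs : ∀ x, φ (tr H (s * s) x) = 0) (hψs : ∀ x, ψ (tr H (s * s) x) = 0)
    (ht : ∀ x : G ⧸ H, (t * (t * t))⁻¹ • x = x) (hκt : ∀ x, κ (tr H (t * (t * t)) x) = 0)
    (hφt : ∀ x, φ (tr H (t * (t * t)) x) = 0) (hψt : ∀ x, ψ (tr H (t * (t * t)) x) = 0)
    {ι : Type*} [Fintype ι] (xc : ι → G ⧸ H) (f : ι → ℕ)
    (e : (Σ i, Fin (f i)) ≃ G ⧸ H)
    (he : ∀ (i : ι) (j : Fin (f i)), e ⟨i, j⟩ = ((s * t) ^ (j : ℕ))⁻¹ • xc i)
    (hpar : ∀ i, ψ (tr H ((s * t) ^ f i) (xc i)) = 0) :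
    ∑ i, κ (tr H ((s * t) ^ f i) (xc i))
      = cp H φ ψ a b s s / 2 + (cp H φ ψ a b t t + cp H φ ψ a b t (t * t)) / 3
        - cp H φ ψ a b s t := by
  -- step 1: the sum over cusps is `Kp (s * t)`
  have hsum : ∑ i, κ (tr H ((s * t) ^ f i) (xc i)) = Kp H φ ψ κ a b (s * t) := by
    have h1 : ∀ i, κ (tr H ((s * t) ^ f i) (xc i))
        = ∑ j : Fin (f i), (κ (tr H (s * t) (e ⟨i, j⟩))
            - a (e ⟨i, j⟩) * ψ (tr H (s * t) (e ⟨i, j⟩))) := by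
      intro i
      rw [kappa_cusp H hφ hψ hκ a (s * t) hu (xc i) (f i) (hpar i),
        ← Fin.sum_univ_eq_sum_range (fun j => κ (tr H (s * t) (((s * t) ^ j)⁻¹ • xc i))
          - a (((s * t) ^ j)⁻¹ • xc i) * ψ (tr H (s * t) (((s * t) ^ j)⁻¹ • xc i)))]
      refine Finset.sum_congr rfl (fun j _ => ?_)
      rw [he]
    rw [Finset.sum_congr rfl (fun i _ => h1 i),
      ← Fintype.sum_sigma' (fun i (j : Fin (f i)) => κ (tr H (s * t) (e ⟨i, j⟩))
            - a (e ⟨i, j⟩) * ψ (tr H (s * t) (e ⟨i, j⟩))),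
      e.sum_comp (fun y => κ (tr H (s * t) y) - a y * ψ (tr H (s * t) y))]
    simp [Kp, hu, Kt, ip, Zc, Finset.sum_sub_distrib]
  -- step 2: evaluate `Kp` on the generators
  have c1 := Kp_cobdry H a b hφ hψ hκ s t
  have c2 := Kp_cobdry H a b hφ hψ hκ s s
  have c3 := Kp_cobdry H a b hφ hψ hκ t t
  have c4 := Kp_cobdry H a b hφ hψ hκ t (t * t)
  have z2 := Kp_of_triv H (φ := φ) (ψ := ψ) (κ := κ) a b (s * s) hs hκs hφs hψs
  have z3 := Kp_of_triv H (φ := φ) (ψ := ψ) (κ := κ) a b (t * (t * t)) ht hκt hφt hψt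
  rw [hsum]
  have h2 : (2 : k) ≠ 0 := two_ne_zero
  have h3 : (3 : k) ≠ 0 := three_ne_zero
  field_simp
  linear_combination (-6 : k) * c1 + 3 * c2 + 2 * c3 + 2 * c4 + 3 * z2 + 2 * z3

end final

section normalised

variable {φ ψ κ : H → k} (a b : G ⧸ H → k)

lemma Lact_injective (g : G) : Function.Injective (Lact H (k := k) g) := by
  intro v w h
  funext x
  have := congrFun h (g • x)
  simpa [Lact] using this

lemma Z1_of_triv (z : G) (hz : ∀ x : G ⧸ H, z⁻¹ • x = x) (hφz : ∀ x, φ (tr H z x) = 0) :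
    Z1 H φ a z = 0 := by
  funext x; simp [Z1, Zc, hφz, Lact, hz]

/-- a normalised cocycle (`Z (s * t) = 0`, `Z (s * s) = 0`) takes the same value at `s` and `t` -/
lemma Z1_t_eq_Z1_s (hφ : ∀ a b, φ (a * b) = φ a + φ b) (s t : G)
    (hu : Z1 H φ a (s * t) = 0) (hss : Z1 H φ a (s * s) = 0) :
    Z1 H φ a t = Z1 H φ a s := by
  apply Lact_injective H s
  have h1 := Z1_mul H a hφ s t
  have h2 := Z1_mul H a hφ s s
  rw [hu] at h1
  rw [hss] at h2
  have e1 : Lact H s (Z1 H φ a t) = - Z1 H φ a s := eq_neg_of_add_eq_zero_right h1.symm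
  have e2 : Lact H s (Z1 H φ a s) = - Z1 H φ a s := eq_neg_of_add_eq_zero_right h2.symm
  rw [e1, e2]

/-- **[PD-INT], normalised form**: if both cocycles are normalised (`Z (s * t) = 0`), then with
`n = Z1 φ a s`, `n' = Z1 ψ b s` the intrinsic sum over cusps is `⟪n, n'⟫ / 6 + ⟪n, t • n'⟫ / 3`
(equivalently `(1/6) ∑ₓ [n(x) n'(t⁻¹x) - n(t⁻¹x) n'(x)]`, the model intersection form). -/
theorem sum_cusps_eq_normalised [CharZero k]
    (hφ : ∀ a b, φ (a * b) = φ a + φ b) (hψ : ∀ a b, ψ (a * b) = ψ a + ψ b)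
    (hκ : ∀ a b, κ a + κ b - κ (a * b) = φ a * ψ b)
    (s t : G) (hu : Z1 H φ a (s * t) = 0) (hu' : Z1 H ψ b (s * t) = 0)
    (hs : ∀ x : G ⧸ H, (s * s)⁻¹ • x = x) (hκs : ∀ x, κ (tr H (s * s) x) = 0)
    (hφs : ∀ x, φ (tr H (s * s) x) = 0) (hψs : ∀ x, ψ (tr H (s * s) x) = 0)
    (ht : ∀ x : G ⧸ H, (t * (t * t))⁻¹ • x = x) (hκt : ∀ x, κ (tr H (t * (t * t)) x) = 0)
    (hφt : ∀ x, φ (tr H (t * (t * t)) x) = 0) (hψt : ∀ x, ψ (tr H (t * (t * t)) x) = 0)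
    {ι : Type*} [Fintype ι] (xc : ι → G ⧸ H) (f : ι → ℕ)
    (e : (Σ i, Fin (f i)) ≃ G ⧸ H)
    (he : ∀ (i : ι) (j : Fin (f i)), e ⟨i, j⟩ = ((s * t) ^ (j : ℕ))⁻¹ • xc i)
    (hpar : ∀ i, ψ (tr H ((s * t) ^ f i) (xc i)) = 0) :
    ∑ i, κ (tr H ((s * t) ^ f i) (xc i))
      = ip H (Z1 H φ a s) (Z1 H ψ b s) / 6
        + ip H (Z1 H φ a s) (Lact H t (Z1 H ψ b s)) / 3 := by
  rw [sum_cusps_eq H a b hφ hψ hκ s t hu hs hκs hφs hψs ht hκt hφt hψt xc f e he hpar]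
  have hAss := Z1_of_triv H (φ := φ) a (s * s) hs hφs
  have hBss := Z1_of_triv H (φ := ψ) b (s * s) hs hψs
  have hBttt := Z1_of_triv H (φ := ψ) b (t * (t * t)) ht hψt
  have hAt := Z1_t_eq_Z1_s H a hφ s t hu hAss
  have hBt := Z1_t_eq_Z1_s H b hψ s t hu' hBss
  -- `s • B s = - B s`, `s • B t = - B s`, `t • B (t*t) = - B t`
  have e1 : Lact H s (Z1 H ψ b s) = - Z1 H ψ b s := by
    have h2 := Z1_mul H b hψ s s
    rw [hBss] at h2
    exact eq_neg_of_add_eq_zero_right h2.symm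
  have e2 : Lact H t (Z1 H ψ b (t * t)) = - Z1 H ψ b s := by
    have h2 := Z1_mul H b hψ t (t * t)
    rw [hBttt, hBt] at h2
    exact eq_neg_of_add_eq_zero_right h2.symm
  have ipneg : ∀ v w : G ⧸ H → k, ip H v (-w) = - ip H v w := by
    intro v w; simp [ip]
  simp only [cp, hAt, hBt, e1, e2, ipneg]
  have h2 : (2 : k) ≠ 0 := two_ne_zero
  have h3 : (3 : k) ≠ 0 := three_ne_zero
  field_simp
  ring

end normalised

end Fermat.Agent.S41.PDInt81
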